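/-
S37 / package P-B1 (helper13, backup route): the RELATIVE divisor package for a finite extension
`F' / F` of function fields in one variable over an algebraically closed field `K` of
characteristic zero, WITHOUT any place/prime dictionary over the local rings of `F`.

* `pushforwardNormFormula` : `Divisor.PushforwardNormFormula K F F'`
    (`π_* div(g) = div(N_{F'/F} g)`),
* `sumRamificationInertia` : `SumRamificationInertia K F F'`  (`∑_{w | v} e(w|v) f(w|v) = [F':F]`),
    hence `FundamentalIdentity K F F'` by the Prelude instance,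
* `pushforward_pullback`   : `π_* π^* D = [F' : F] • D`.

Route.  For `g ∈ F'` put `δ(v) = ord_v (N g) - ∑_{w | v} ord_w g`.
(A) For every transcendental `x ∈ F`: `∑_{v : ord_v x > 0} δ(v) = 0`.  This is the landed
    ABSOLUTE norm-order formula (`S18/H42.norm_order`) for `F / K(x)` applied to `N g` and for
    `F' / K(x)` applied to `g`, with the same numerator and denominator because
    `N_{F'/K(x)} g = N_{F/K(x)} (N_{F'/F} g)`.
(B) `δ` has finite support (principal divisors of `F` and `F'` have finite support).
(C) Weak approximation (landed `S18/H17.exists_ord_eq_finset`) gives `x` with `ord_v x = 1` and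
    `ord_{v'} x = 0` on the rest of the support of `δ`; then (A) reads `δ(v) = 0`.
The fundamental identity follows from the norm formula applied to `g = t` with `ord_v t = 1`
(`N t = t ^ [F':F]`).
-/
import Fermat.Prelude.Def_AlgebraicCurve_Correspondence
import Fermat.Agent.S18.H42.NormOrder
import Fermat.Agent.S18.H17.WeakApprox
import Fermat.Agent.S18.H13.PrincDiv

set_option autoImplicit false
set_option linter.unusedSectionVars false
set_option linter.style.haveILetI false

open AlgebraicCurve IntermediateField Polynomial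

noncomputable section

namespace Fermat.Agent.S37.H13

section FunctionField

variable {K F : Type*} [Field K] [Field F] [Algebra K F]

/-- A field which is finite over `K(t)` is finitely generated over `K`. -/
theorem exists_finite_generators (t : F) [FiniteDimensional K⟮t⟯ F] :
    ∃ S : Set F, S.Finite ∧ IntermediateField.adjoin K S = ⊤ := by
  classical
  let b := Module.finBasis K⟮t⟯ F
  refine ⟨insert t (Set.range b), (Set.finite_range b).insert t, ?_⟩
  rw [eq_top_iff]
  intro f _
  have hle : K⟮t⟯ ≤ IntermediateField.adjoin K (insert t (Set.range b)) :=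
    IntermediateField.adjoin.mono K _ _ (Set.singleton_subset_iff.mpr (Set.mem_insert _ _))
  rw [← b.sum_repr f]
  refine sum_mem fun i _ => ?_
  rw [Algebra.smul_def]
  exact mul_mem (hle (b.repr f i).2)
    (IntermediateField.subset_adjoin K _ (Set.mem_insert_of_mem _ (Set.mem_range_self i)))

/-- A function field is finite over `K(y)` for every transcendental `y`. -/
theorem finiteDimensional_of_transcendental (t : F) [FiniteDimensional K⟮t⟯ F] {y : F}
    (hy : Transcendental K y) : FiniteDimensional K⟮y⟯ F := by
  haveI : Algebra.IsAlgebraic K⟮t⟯ F := Algebra.IsAlgebraic.of_finite _ _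
  obtain ⟨S, hSf, hS⟩ := exists_finite_generators (K := K) t
  exact Fermat.Agent.S18.H13.finiteDimensional_adjoin_of_transcendental t S hSf hS hy

/-- Principal divisors of a function field (finite over `K(t)`) exist. -/
theorem hasPrincipalDivisors_of_finiteDimensional [IsAlgClosed K] [CharZero K] (t : F)
    [FiniteDimensional K⟮t⟯ F] : HasPrincipalDivisors K F where
  exists_divisor f hf := by
    haveI : Algebra.IsAlgebraic K⟮t⟯ F := Algebra.IsAlgebraic.of_finite _ _
    obtain ⟨S, hSf, hS⟩ := exists_finite_generators (K := K) t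
    exact Fermat.Agent.S18.H13.exists_divisor_of_ne_zero t S hSf hS hf

/-- Places of a function field over an algebraically closed field have degree one. -/
theorem deg_eq_one_of_finiteDimensional [IsAlgClosed K] (t : F) [FiniteDimensional K⟮t⟯ F]
    (v : Place K F) : v.deg = 1 := by
  haveI : Algebra.IsAlgebraic K⟮t⟯ F := Algebra.IsAlgebraic.of_finite _ _
  exact Fermat.Agent.S24.deg_eq_one t v

/-- A function with a zero or a pole is transcendental over an algebraically closed field. -/
theorem transcendental_of_ord_ne_zero [IsAlgClosed K] {x : F} (v : Place K F)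
    (hv : v.ord x ≠ 0) : Transcendental K x := by
  intro halg
  obtain ⟨a, rfl⟩ : ∃ a : K, algebraMap K F a = x := by
    have hint : IsIntegral K x := halg.isIntegral
    have hdeg : (minpoly K x).degree = 1 :=
      IsAlgClosed.degree_eq_one_of_irreducible K (minpoly.irreducible hint)
    exact minpoly.mem_range_of_degree_eq_one K x hdeg
  exact hv (Fermat.Agent.S24.H95.ord_algebraMap v a)

end FunctionField

section Relative

variable {K F F' : Type*} [Field K] [Field F] [Field F'] [Algebra K F] [Algebra K F']
  [Algebra F F'] [IsScalarTower K F F']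

theorem transcendental_algebraMap {x : F} (hx : Transcendental K x) :
    Transcendental K (algebraMap F F' x) :=
  (transcendental_algebraMap_iff (algebraMap F F').injective).mpr hx

/-- The field `K(x)` inside `F` and the field `K(x)` inside `F'`. -/
def adjoinEquiv (x : F) : K⟮x⟯ ≃+* K⟮algebraMap F F' x⟯ :=
  ((IntermediateField.equivMap K⟮x⟯ (IsScalarTower.toAlgHom K F F')).trans
    (IntermediateField.equivOfEq (by
      rw [IntermediateField.adjoin_map, Set.image_singleton]
      rfl))).toRingEquiv

theorem coe_adjoinEquiv (x : F) (a : K⟮x⟯) :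
    ((adjoinEquiv (F' := F') x a : K⟮algebraMap F F' x⟯) : F') = algebraMap F F' (a : F) :=
  rfl

/-- `F'` is finite over `K(x)` (inside `F'`) when `F'/F` and `F/K(x)` are finite. -/
theorem finiteDimensional_top (x : F) [FiniteDimensional K⟮x⟯ F] [Module.Finite F F'] :
    FiniteDimensional K⟮algebraMap F F' x⟯ F' := by
  have h1 : Module.Finite K⟮x⟯ F' := Module.Finite.trans F F'
  exact Module.Finite.of_equiv_equiv (adjoinEquiv (F' := F') x) (RingEquiv.refl F')
    (RingHom.ext fun _ => rfl)

/-- Transitivity of the norm through `K(x) ⊆ F ⊆ F'`. -/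
theorem coe_norm_adjoin_algebraMap (x : F) [Module.Finite F F'] (g : F') :
    ((Algebra.norm K⟮algebraMap F F' x⟯ g : K⟮algebraMap F F' x⟯) : F')
      = algebraMap F F' ((Algebra.norm K⟮x⟯ (Algebra.norm F g) : K⟮x⟯) : F) := by
  have h1 : Algebra.norm K⟮x⟯ g
      = (adjoinEquiv (F' := F') x).symm (Algebra.norm K⟮algebraMap F F' x⟯ (RingEquiv.refl F' g)) :=
    Algebra.norm_eq_of_equiv_equiv (adjoinEquiv (F' := F') x) (RingEquiv.refl F')
      (RingHom.ext fun _ => rfl) g
  have h2 : Algebra.norm K⟮x⟯ (Algebra.norm F g) = Algebra.norm K⟮x⟯ g := Algebra.norm_norm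
  rw [h2, h1, ← coe_adjoinEquiv, RingEquiv.apply_symm_apply]
  rfl

/-- **Claim (A)**: the absolute norm-order formula for `F/K(x)` and `F'/K(x)`. -/
theorem finsum_ord_norm_eq [IsAlgClosed K] [CharZero K] [Module.Finite F F'] (x : F)
    (hx : Transcendental K x) [FiniteDimensional K⟮x⟯ F] {g : F'} (hg : g ≠ 0) (c : K) :
    ∑ᶠ v ∈ {v : Place K F | 0 < v.ord (x - algebraMap K F c)}, v.ord (Algebra.norm F g)
      = ∑ᶠ w ∈ {w : Place K F' | 0 < w.ord (algebraMap F F' x - algebraMap K F' c)},
          w.ord g := by
  have hh : Algebra.norm F g ≠ 0 := Algebra.norm_ne_zero_iff.mpr hg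
  obtain ⟨y, hy⟩ : ∃ y : K⟮x⟯, y = Algebra.norm K⟮x⟯ (Algebra.norm F g) := ⟨_, rfl⟩
  have hy0 : y ≠ 0 := hy ▸ Algebra.norm_ne_zero_iff.mpr hh
  obtain ⟨r, s, hrs⟩ := (IntermediateField.mem_adjoin_simple_iff K (y : F)).mp y.2
  have hs : aeval x s ≠ 0 := by
    intro h0
    rw [h0, div_zero] at hrs
    exact hy0 (Subtype.ext hrs)
  have hs0 : s ≠ 0 := by
    rintro rfl
    exact hs (map_zero _)
  have h1 : ((Algebra.norm K⟮x⟯ (Algebra.norm F g) : K⟮x⟯) : F) * aeval x s = aeval x r := by
    rw [← hy, hrs, div_mul_cancel₀ _ hs]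
  have hx' : Transcendental K (algebraMap F F' x) := transcendental_algebraMap hx
  haveI : FiniteDimensional K⟮algebraMap F F' x⟯ F' := finiteDimensional_top x
  have h2 : ((Algebra.norm K⟮algebraMap F F' x⟯ g : K⟮algebraMap F F' x⟯) : F')
      * aeval (algebraMap F F' x) s = aeval (algebraMap F F' x) r := by
    rw [coe_norm_adjoin_algebraMap, Polynomial.aeval_algebraMap_apply,
      Polynomial.aeval_algebraMap_apply, ← map_mul, h1]
  rw [← Fermat.Agent.S18.H42.norm_order x hx hh r s hs0 h1 c,
    ← Fermat.Agent.S18.H42.norm_order (algebraMap F F' x) hx' hg r s hs0 h2 c]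

/-- Inertia degrees are `1` over an algebraically closed constant field. -/
theorem inertiaDeg_eq_one [IsAlgClosed K] (t : F) [FiniteDimensional K⟮t⟯ F]
    [Module.Finite F F'] (w : Place K F') : w.inertiaDeg F = 1 := by
  haveI : FiniteDimensional K⟮algebraMap F F' t⟯ F' := finiteDimensional_top t
  have h := w.deg_restrict_mul_inertiaDeg (F := F)
  rw [deg_eq_one_of_finiteDimensional t (w.restrict F),
    deg_eq_one_of_finiteDimensional (algebraMap F F' t) w, one_mul] at h
  exact h

section Fibre

variable [HasPrincipalDivisors K F']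

/-- The places of `F'` over `x = c` are the places in the fibres of the places of `F` over
`x = c`. -/
theorem pos_ord_top_iff [Module.Finite F F'] (x : F) (c : K) (w : Place K F') :
    0 < w.ord (algebraMap F F' x - algebraMap K F' c)
      ↔ 0 < (w.restrict F).ord (x - algebraMap K F c) := by
  rw [IsScalarTower.algebraMap_apply K F F' c, ← map_sub, Place.ord_restrict]
  have he : (0 : ℤ) < (Place.ramificationIndex (F := F) w : ℤ) := by
    exact_mod_cast w.ramificationIndex_pos (F := F)
  exact ⟨fun h => (mul_pos_iff_of_pos_left he).mp h, fun h => mul_pos he h⟩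

theorem sum_over_top [CharZero K] [Module.Finite F F'] (x : F) (hx : Transcendental K x)
    [FiniteDimensional K⟮x⟯ F] (c : K) (φ : Place K F' → ℤ) :
    ∑ᶠ w ∈ {w : Place K F' | 0 < w.ord (algebraMap F F' x - algebraMap K F' c)}, φ w
      = ∑ v ∈ (Fermat.Agent.S18.H42.finite_over x hx c).toFinset, ∑ w ∈ v.fiber F', φ w := by
  classical
  have hx' : Transcendental K (algebraMap F F' x) := transcendental_algebraMap hx
  haveI : FiniteDimensional K⟮algebraMap F F' x⟯ F' := finiteDimensional_top x
  have hfin' := Fermat.Agent.S18.H42.finite_over (algebraMap F F' x) hx' c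
  rw [finsum_mem_eq_finite_toFinset_sum _ hfin']
  have hset : hfin'.toFinset
      = (Fermat.Agent.S18.H42.finite_over x hx c).toFinset.biUnion (fun v => v.fiber F') := by
    ext w
    simp only [Set.Finite.mem_toFinset, Set.mem_ofPred_eq, Finset.mem_biUnion, Place.mem_fiber]
    constructor
    · intro h
      exact ⟨w.restrict F, (pos_ord_top_iff x c w).mp h, rfl⟩
    · rintro ⟨v, hv, rfl⟩
      exact (pos_ord_top_iff x c w).mpr hv
  rw [hset, Finset.sum_biUnion]
  intro v _ v' _ hvv'
  rw [Function.onFun, Finset.disjoint_left]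
  intro w hw hw'
  exact hvv' ((Place.mem_fiber.mp hw).symm.trans (Place.mem_fiber.mp hw'))

/-- **Relative norm formula** (fibre form): `∑_{w | v} ord_w g = ord_v (N_{F'/F} g)`. -/
theorem sum_fiber_ord_eq_ord_norm [IsAlgClosed K] [CharZero K] (t : F)
    (ht : Transcendental K t) [FiniteDimensional K⟮t⟯ F] [Module.Finite F F'] {g : F'}
    (hg : g ≠ 0) (v : Place K F) :
    ∑ w ∈ v.fiber F', w.ord g = v.ord (Algebra.norm F g) := by
  classical
  haveI hPF : HasPrincipalDivisors K F := hasPrincipalDivisors_of_finiteDimensional t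
  have hh : Algebra.norm F g ≠ 0 := Algebra.norm_ne_zero_iff.mpr hg
  obtain ⟨Dg, hDg, -⟩ := HasPrincipalDivisors.exists_divisor (K := K) g hg
  obtain ⟨Dh, hDh, -⟩ := HasPrincipalDivisors.exists_divisor (K := K) (Algebra.norm F g) hh
  -- the defect and its support
  obtain ⟨δ, hδdef⟩ : ∃ δ : Place K F → ℤ,
      ∀ v', δ v' = v'.ord (Algebra.norm F g) - ∑ w ∈ v'.fiber F', w.ord g := ⟨_, fun _ => rfl⟩
  obtain ⟨S, hSdef⟩ : ∃ S : Finset (Place K F),
      S = Dh.support ∪ Dg.support.image (fun w => w.restrict F) := ⟨_, rfl⟩
  have hδ : ∀ v', v' ∉ S → δ v' = 0 := by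
    intro v' hv'
    rw [hSdef, Finset.mem_union, not_or] at hv'
    have h1 : v'.ord (Algebra.norm F g) = 0 := by
      rw [← hDh]
      exact Finsupp.notMem_support_iff.mp hv'.1
    have h2 : ∑ w ∈ v'.fiber F', w.ord g = 0 := Finset.sum_eq_zero fun w hw => by
      rw [← hDg]
      refine Finsupp.notMem_support_iff.mp fun hw' => hv'.2 ?_
      exact Finset.mem_image.mpr ⟨w, hw', Place.mem_fiber.mp hw⟩
    rw [hδdef, h1, h2, sub_zero]
  -- weak approximation: a uniformiser at `v` without zeros on the rest of `S`
  obtain ⟨x, hx0, hxT⟩ := Fermat.Agent.S18.H17.exists_ord_eq_finset t ht (insert v S)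
    (fun P => if P = v then 1 else 0)
  have hxv : v.ord x = 1 := by
    have := hxT v (Finset.mem_insert_self v S)
    simpa using this
  have hxS : ∀ P ∈ S, P ≠ v → P.ord x = 0 := fun P hP hne => by
    have := hxT P (Finset.mem_insert_of_mem hP)
    simpa [hne] using this
  have hx : Transcendental K x := transcendental_of_ord_ne_zero v (by rw [hxv]; exact one_ne_zero)
  haveI : FiniteDimensional K⟮x⟯ F := finiteDimensional_of_transcendental t hx
  have hA := finsum_ord_norm_eq (F' := F') x hx hg (0 : K)
  rw [sum_over_top x hx 0 (fun w => w.ord g),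
    finsum_mem_eq_finite_toFinset_sum _ (Fermat.Agent.S18.H42.finite_over x hx 0)] at hA
  have hsum : ∑ v' ∈ (Fermat.Agent.S18.H42.finite_over x hx 0).toFinset, δ v' = 0 := by
    simp only [hδdef, Finset.sum_sub_distrib, hA, sub_self]
  have hvZ : v ∈ (Fermat.Agent.S18.H42.finite_over x hx 0).toFinset := by
    rw [Set.Finite.mem_toFinset]
    show 0 < v.ord (x - algebraMap K F 0)
    rw [map_zero, sub_zero, hxv]
    exact one_pos
  rw [Finset.sum_eq_single_of_mem v hvZ] at hsum
  · rw [hδdef] at hsum
    linarith
  · intro v' hv' hne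
    apply hδ
    intro hS
    have h0 := hxS v' hS hne
    rw [Set.Finite.mem_toFinset] at hv'
    have hpos : 0 < v'.ord (x - algebraMap K F 0) := hv'
    rw [map_zero, sub_zero, h0] at hpos
    exact lt_irrefl _ hpos

/-- **(G3)** `∑_{w | v} e(w|v) f(w|v) = [F' : F]`. -/
theorem sumRamificationInertia [IsAlgClosed K] [CharZero K] (t : F)
    (ht : Transcendental K t) [FiniteDimensional K⟮t⟯ F] [Module.Finite F F'] :
    SumRamificationInertia K F F' where
  sum_ramificationIndex_mul_inertiaDeg v := by
    obtain ⟨π, hπ0, hπ⟩ := Fermat.Agent.S18.H17.exists_ord_eq_finset t ht {v} (fun _ => 1)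
    have hπv : v.ord π = 1 := hπ v (Finset.mem_singleton_self v)
    have h := sum_fiber_ord_eq_ord_norm (F' := F') t ht (g := algebraMap F F' π)
      (by simpa using hπ0) v
    rw [Algebra.norm_algebraMap, ← zpow_natCast, Place.ord_zpow, hπv, mul_one] at h
    rw [← h]
    refine Finset.sum_congr rfl fun w hw => ?_
    rw [Place.ord_restrict, Place.mem_fiber.mp hw, hπv, mul_one, inertiaDeg_eq_one t w,
      Nat.cast_one, mul_one]

end Fibre

/-- **(G4)** The divisor norm formula `π_* div(g) = div(N_{F'/F} g)`. -/
theorem pushforwardNormFormula [IsAlgClosed K] [CharZero K] (t : F)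
    (ht : Transcendental K t) [FiniteDimensional K⟮t⟯ F] [Module.Finite F F'] :
    Divisor.PushforwardNormFormula K F F' := by
  classical
  intro f hf D hD v
  haveI : FiniteDimensional K⟮algebraMap F F' t⟯ F' := finiteDimensional_top t
  haveI : HasPrincipalDivisors K F' :=
    hasPrincipalDivisors_of_finiteDimensional (algebraMap F F' t)
  rw [Divisor.pushforward_apply, ← sum_fiber_ord_eq_ord_norm t ht hf v, ← Finset.sum_filter]
  have hsub : D.support.filter (fun w => w.restrict F = v) ⊆ v.fiber F' := by
    intro w hw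
    exact Place.mem_fiber.mpr (Finset.mem_filter.mp hw).2
  rw [Finset.sum_subset hsub]
  · refine Finset.sum_congr rfl fun w _ => ?_
    rw [inertiaDeg_eq_one t w, Nat.cast_one, mul_one, hD]
  · intro w hw hw'
    have : w ∉ D.support := fun h => hw' (Finset.mem_filter.mpr ⟨h, Place.mem_fiber.mp hw⟩)
    rw [Finsupp.notMem_support_iff.mp this, zero_mul]

end Relative

section Formal

variable {K F F' : Type*} [Field K] [Field F] [Field F'] [Algebra K F] [Algebra K F']
  [Algebra F F'] [IsScalarTower K F F'] [Algebra.IsIntegral F F'] [HasPrincipalDivisors K F']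

/-- `π_* π^* D = [F' : F] • D`. -/
theorem pushforward_pullback [SumRamificationInertia K F F'] (D : Divisor K F) :
    Divisor.pushforward F (Divisor.pullback F' D) = (Module.finrank F F') • D := by
  induction D using Finsupp.induction with
  | zero => simp
  | single_add v n D _ _ ih =>
    rw [map_add, map_add, ih, smul_add]
    congr 1
    rw [Divisor.pullback_single, map_sum]
    have h1 : ∀ w ∈ v.fiber F', Divisor.pushforward F
        (Finsupp.single w (n * (Place.ramificationIndex (F := F) w : ℤ)))
        = Finsupp.single v (n * ((Place.ramificationIndex (F := F) w : ℤ)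
            * (w.inertiaDeg F : ℤ))) := by
      intro w hw
      rw [Divisor.pushforward_single, Place.mem_fiber.mp hw, mul_assoc]
    rw [Finset.sum_congr rfl h1, ← Finsupp.single_finsetSum, ← Finset.mul_sum,
      SumRamificationInertia.sum_ramificationIndex_mul_inertiaDeg (K := K) (F := F) (F' := F') v,
      Finsupp.smul_single, nsmul_eq_mul, mul_comm]

end Formal

end Fermat.Agent.S37.H13
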