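/-
S37 / packages P-B1 (Along-forms) and P-B3 (helper13, backup route).

* Along-forms of the relative package of `RelNorm.lean` for an arbitrary `φ : F →ₐ[K] F'` with
  `FiniteAlong K φ` (`K` algebraically closed of characteristic zero, `F` finite over `K(t)`):
  `normFormulaAlong`, `fundamentalIdentityAlong`, `pushforwardAlong_pullbackAlong`.
* Modular instances for the two degeneracy maps `α = heckeAlphaBar`, `β = heckeBetaBar`
  (finiteness and integrality: landed `S37/H87/HeckeDegree.lean`).
* **P-B3** `heckeInputsAlong N ℓ : ModularCurve.HeckeInputsAlong ℚ̄ N ℓ` — the guard of the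
  Prelude's `heckeOperatorAlong` — for ALL `N, ℓ ≥ 1`, and `heckeOperatorAlong_eq_heckePic0Bar`.
-/
import Fermat.Prelude.Def_ModularCurve_HeckeOperatorTotal
import Fermat.Agent.S37.H13.RelNorm
import Fermat.Agent.S37.H87.HeckeDegree
import Fermat.Agent.S18.H60.DegreeJ

set_option autoImplicit false
set_option linter.unusedSectionVars false
set_option linter.style.haveILetI false

open AlgebraicCurve IntermediateField

noncomputable section

namespace Fermat.Agent.S37.H13

section Along

variable {K F F' : Type*} [Field K] [Field F] [Field F'] [Algebra K F] [Algebra K F']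
  [IsAlgClosed K] [CharZero K]

/-- **(G4), Along-form.** -/
theorem normFormulaAlong (t : F) (ht : Transcendental K t) [FiniteDimensional K⟮t⟯ F]
    (φ : F →ₐ[K] F') (hfin : FiniteAlong K φ) : NormFormulaAlong K φ hfin := by
  letI := algebraAlong φ
  haveI := isScalarTower_along φ
  haveI : Module.Finite F F' := hfin
  exact pushforwardNormFormula t ht

/-- **(G3), Along-form.** -/
theorem fundamentalIdentityAlong (t : F) (ht : Transcendental K t) [FiniteDimensional K⟮t⟯ F]
    [HasPrincipalDivisors K F'] (φ : F →ₐ[K] F') (hφ : φ.toRingHom.IsIntegral)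
    (hfin : FiniteAlong K φ) : FundamentalIdentityAlong K φ hφ := by
  letI := algebraAlong φ
  haveI := isScalarTower_along φ
  haveI := isIntegral_along φ hφ
  haveI : Module.Finite F F' := hfin
  haveI : SumRamificationInertia K F F' := sumRamificationInertia t ht
  show FundamentalIdentity K F F'
  infer_instance

/-- **(V), Along-form**: `φ_* φ^* D = [F' : φ F] • D`. -/
theorem pushforwardAlong_pullbackAlong (t : F) (ht : Transcendental K t)
    [FiniteDimensional K⟮t⟯ F] [HasPrincipalDivisors K F'] (φ : F →ₐ[K] F')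
    (hφ : φ.toRingHom.IsIntegral) (hfin : FiniteAlong K φ) (D : Divisor K F) :
    Divisor.pushforwardAlong φ hφ (Divisor.pullbackAlong φ hφ D) = finrankAlong K φ • D := by
  letI := algebraAlong φ
  haveI := isScalarTower_along φ
  haveI := isIntegral_along φ hφ
  haveI : Module.Finite F F' := hfin
  haveI : SumRamificationInertia K F F' := sumRamificationInertia t ht
  exact pushforward_pullback D

/-- Fibre form of the norm formula along `φ`: `∑_{w | v} ord_w g = ord_v (N_φ g)`. -/
theorem sum_fiber_ord_eq_ord_norm_along (t : F) (ht : Transcendental K t)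
    [FiniteDimensional K⟮t⟯ F] [HasPrincipalDivisors K F'] (φ : F →ₐ[K] F')
    (hfin : FiniteAlong K φ) {g : F'} (hg : g ≠ 0) (v : Place K F) :
    letI := algebraAlong φ
    haveI := isScalarTower_along φ
    haveI : Module.Finite F F' := hfin
    ∑ w ∈ v.fiber F', w.ord g = v.ord (Algebra.norm F g) := by
  letI := algebraAlong φ
  haveI := isScalarTower_along φ
  haveI : Module.Finite F F' := hfin
  exact sum_fiber_ord_eq_ord_norm t ht hg v

end Along

section Hecke

open ModularCurve Fermat.Agent.S24

variable (N ℓ : ℕ) [NeZero N] [NeZero ℓ]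

/-- `F_N / ℚ̄(j)` is finite. -/
theorem finiteDimensional_jgen : FiniteDimensional Kbar⟮jgen N⟯ (FF N) :=
  (Fermat.Agent.S18.H87.finrank_adjoin_jgen N).1

theorem normFormulaAlong_alpha :
    NormFormulaAlong Kbar (heckeAlphaBar Kbar N ℓ) (Fermat.Agent.S37.H87.finiteAlong_alpha N ℓ) := by
  haveI := finiteDimensional_jgen N
  exact normFormulaAlong (jgen N) (Fermat.Agent.S18.H60.transcendental_jgen N) _ _

theorem normFormulaAlong_beta :
    NormFormulaAlong Kbar (heckeBetaBar Kbar N ℓ) (Fermat.Agent.S37.H87.finiteAlong_beta N ℓ) := by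
  haveI := finiteDimensional_jgen N
  exact normFormulaAlong (jgen N) (Fermat.Agent.S18.H60.transcendental_jgen N) _ _

theorem fundamentalIdentityAlong_alpha
    [HasPrincipalDivisors Kbar (laurentBaseChange Kbar (modularFunctionFieldFull (N * ℓ)))] :
    FundamentalIdentityAlong Kbar (heckeAlphaBar Kbar N ℓ)
      (Fermat.Agent.S37.H87.heckeAlphaBarIntegral N ℓ) := by
  haveI := finiteDimensional_jgen N
  exact fundamentalIdentityAlong (jgen N) (Fermat.Agent.S18.H60.transcendental_jgen N) _ _
    (Fermat.Agent.S37.H87.finiteAlong_alpha N ℓ)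

theorem fundamentalIdentityAlong_beta
    [HasPrincipalDivisors Kbar (laurentBaseChange Kbar (modularFunctionFieldFull (N * ℓ)))] :
    FundamentalIdentityAlong Kbar (heckeBetaBar Kbar N ℓ)
      (Fermat.Agent.S37.H87.heckeBetaBarIntegral N ℓ) := by
  haveI := finiteDimensional_jgen N
  exact fundamentalIdentityAlong (jgen N) (Fermat.Agent.S18.H60.transcendental_jgen N) _ _
    (Fermat.Agent.S37.H87.finiteAlong_beta N ℓ)

/-- `α_* α^* D = [F_{Nℓ} : α F_N] • D`. -/
theorem pushforwardAlong_pullbackAlong_alpha
    [HasPrincipalDivisors Kbar (laurentBaseChange Kbar (modularFunctionFieldFull (N * ℓ)))]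
    (D : Divisor Kbar (FF N)) :
    Divisor.pushforwardAlong (heckeAlphaBar Kbar N ℓ)
        (Fermat.Agent.S37.H87.heckeAlphaBarIntegral N ℓ)
        (Divisor.pullbackAlong (heckeAlphaBar Kbar N ℓ)
          (Fermat.Agent.S37.H87.heckeAlphaBarIntegral N ℓ) D)
      = finrankAlong Kbar (heckeAlphaBar Kbar N ℓ) • D := by
  haveI := finiteDimensional_jgen N
  exact pushforwardAlong_pullbackAlong (jgen N) (Fermat.Agent.S18.H60.transcendental_jgen N) _ _
    (Fermat.Agent.S37.H87.finiteAlong_alpha N ℓ) D

/-- `β_* β^* D = [F_{Nℓ} : β F_N] • D`. -/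
theorem pushforwardAlong_pullbackAlong_beta
    [HasPrincipalDivisors Kbar (laurentBaseChange Kbar (modularFunctionFieldFull (N * ℓ)))]
    (D : Divisor Kbar (FF N)) :
    Divisor.pushforwardAlong (heckeBetaBar Kbar N ℓ)
        (Fermat.Agent.S37.H87.heckeBetaBarIntegral N ℓ)
        (Divisor.pullbackAlong (heckeBetaBar Kbar N ℓ)
          (Fermat.Agent.S37.H87.heckeBetaBarIntegral N ℓ) D)
      = finrankAlong Kbar (heckeBetaBar Kbar N ℓ) • D := by
  haveI := finiteDimensional_jgen N
  exact pushforwardAlong_pullbackAlong (jgen N) (Fermat.Agent.S18.H60.transcendental_jgen N) _ _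
    (Fermat.Agent.S37.H87.finiteAlong_beta N ℓ) D

/-- Principal divisors at level `N ℓ` (landed `S18/H13`). -/
theorem hasPrincipalDivisors_level :
    HasPrincipalDivisors Kbar (laurentBaseChange Kbar (modularFunctionFieldFull (N * ℓ))) :=
  Fermat.Agent.S18.H13.hasPrincipalDivisors_FF (N * ℓ)

/-- **P-B3.** The guard of the Prelude's `heckeOperatorAlong` holds for all `N, ℓ ≥ 1`. -/
theorem heckeInputsAlong : HeckeInputsAlong (AlgebraicClosure ℚ) N ℓ := by
  haveI := hasPrincipalDivisors_level N ℓ
  exact heckeInputsAlong_intro (Fermat.Agent.S37.H87.heckeAlphaBarIntegral N ℓ)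
    (Fermat.Agent.S37.H87.heckeBetaBarIntegral N ℓ) (fundamentalIdentityAlong_beta N ℓ)
    (Fermat.Agent.S37.H87.finiteAlong_alpha N ℓ) (normFormulaAlong_alpha N ℓ)

/-- The Prelude's total Hecke operator is the honest correspondence `α_* ∘ β^*` on `Pic⁰`. -/
theorem heckeOperatorAlong_eq_heckePic0Bar
    [HasPrincipalDivisors Kbar (laurentBaseChange Kbar (modularFunctionFieldFull (N * ℓ)))] :
    heckeOperatorAlong (AlgebraicClosure ℚ) N ℓ
      = heckePic0Bar (Fermat.Agent.S37.H87.heckeAlphaBarIntegral N ℓ)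
          (Fermat.Agent.S37.H87.heckeBetaBarIntegral N ℓ) (fundamentalIdentityAlong_beta N ℓ)
          (Fermat.Agent.S37.H87.finiteAlong_alpha N ℓ) (normFormulaAlong_alpha N ℓ) :=
  heckeOperatorAlong_eq _ _ _ _ _

end Hecke

end Fermat.Agent.S37.H13
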